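import Mathlib.Combinatorics.HalesJewett
import Mathlib.Data.Nat.Factorization.Basic
import Mathlib.Data.Int.Lemmas
import Mathlib.Tactic

/-!
# Brauer's theorem and Rado's theorem for one equation

A finite colouring of the positive integers has a monochromatic progression together with a
multiple of its difference (Brauer); a linear equation is partition regular if and only if some
nonempty set of its coefficients sums to zero (Rado).
-/

set_option autoImplicit false

noncomputable section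

open Finset Combinatorics

namespace FA.RadoEquation

variable {κ : Type*} [Finite κ]

/-- Van der Waerden's theorem, in finite form. -/
theorem exists_progression (L : ℕ) : ∃ W : ℕ, ∀ C : ℕ → κ, ∃ a d : ℕ, ∃ c : κ,
    0 < a ∧ 0 < d ∧ a + L * d ≤ W ∧ ∀ j ≤ L, C (a + j * d) = c := by
  classical
  obtain ⟨ι, _, hι⟩ := Line.exists_mono_in_high_dimension (Fin (L + 1)) κ
  refine ⟨Fintype.card ι * L + 1, fun C => ?_⟩
  obtain ⟨l, c, hl⟩ := hι fun v => C (1 + ∑ i, (v i : ℕ))
  set s : Finset ι := {i | l.idxFun i = none} with hs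
  set b := 1 + ∑ i ∈ sᶜ, ((l 0) i : ℕ) with hb
  have key : ∀ j : Fin (L + 1), 1 + ∑ i, ((l j) i : ℕ) = b + #s * (j : ℕ) := by
    intro j
    have h1 : ∀ i ∈ s, ((l j) i : ℕ) = j := fun i hi => by
      rw [l.apply_none _ _ (mem_filter.1 hi).2]
    have h2 : ∀ i ∈ sᶜ, ((l j) i : ℕ) = ((l 0) i : ℕ) := fun i hi => by
      simp only [hs, mem_compl, mem_filter, mem_univ, true_and] at hi
      obtain ⟨y, hy⟩ := Option.ne_none_iff_exists.1 hi
      simp [← hy]
    rw [← sum_add_sum_compl s, sum_congr rfl h1, sum_congr rfl h2, sum_const, smul_eq_mul, hb]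
    ring
  obtain ⟨i, hi⟩ := l.proper
  refine ⟨b, #s, c, by omega, card_pos.2 ⟨i, mem_filter.2 ⟨mem_univ i, hi⟩⟩, ?_, fun j hj => ?_⟩
  · have h := key ⟨L, Nat.lt_succ_self L⟩
    have h' : ∑ i, ((l ⟨L, Nat.lt_succ_self L⟩) i : ℕ) ≤ Fintype.card ι * L := by
      refine (sum_le_card_nsmul _ _ L fun i _ => ?_).trans (by rw [card_univ, smul_eq_mul])
      exact Nat.le_of_lt_succ (Fin.is_lt _)
    simp only [mul_comm #s] at h
    omega
  · have h := hl ⟨j, Nat.lt_succ_of_le hj⟩
    simp only [key] at h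
    rwa [mul_comm] at h

/-- **Brauer's theorem**, in finite form. -/
theorem brauer_finite (m : ℕ) {s : ℕ} (hs : 0 < s) : ∀ r : ℕ, ∃ N : ℕ, 0 < N ∧
    ∀ (C : ℕ → κ) (T : Finset κ), #T ≤ r → (∀ n, 0 < n → n ≤ N → C n ∈ T) →
      ∃ a d : ℕ, 0 < a ∧ 0 < d ∧ a + m * d ≤ N ∧ s * d ≤ N ∧
        ∀ j ≤ m, C (a + j * d) = C (s * d) := by
  classical
  intro r
  induction r with
  | zero =>
    refine ⟨1, one_pos, fun C T hT h => absurd (h 1 one_pos le_rfl) ?_⟩
    rw [card_eq_zero.1 (Nat.le_zero.1 hT)]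
    exact notMem_empty _
  | succ r ih =>
    obtain ⟨N', hN', hN⟩ := ih
    obtain ⟨W, hW⟩ := exists_progression (κ := κ) (m * N' + 1)
    refine ⟨max (W + 1) (s * W * N'), lt_of_lt_of_le W.succ_pos (le_max_left _ _),
      fun C T hT hC => ?_⟩
    obtain ⟨a, d, c, ha, hd, hbound, hc⟩ := hW C
    have hdW : d ≤ W := by
      have : d ≤ (m * N' + 1) * d := Nat.le_mul_of_pos_left d (by omega)
      omega
    by_cases hex : ∃ e, 0 < e ∧ e ≤ N' ∧ C (s * (d * e)) = c
    · obtain ⟨e, he, heN, hec⟩ := hex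
      have hme : ∀ j ≤ m, j * e ≤ m * N' + 1 := fun j hj =>
        (Nat.mul_le_mul hj heN).trans (Nat.le_succ _)
      refine ⟨a, d * e, ha, Nat.mul_pos hd he, ?_, ?_, fun j hj => ?_⟩
      · refine le_trans ?_ ((hbound.trans W.le_succ).trans (le_max_left _ _))
        rw [show m * (d * e) = m * e * d by ring]
        exact Nat.add_le_add_left (Nat.mul_le_mul_right d (hme m le_rfl)) a
      · refine le_trans ?_ (le_max_right _ _)
        rw [mul_assoc]
        exact Nat.mul_le_mul_left s (Nat.mul_le_mul hdW heN)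
      · rw [hec, show j * (d * e) = j * e * d by ring]
        exact hc _ (hme j hj)
    · push Not at hex
      have hmul : ∀ e ≤ N', s * d * e ≤ max (W + 1) (s * W * N') := fun e he =>
        le_trans (Nat.mul_le_mul (Nat.mul_le_mul_left s hdW) he) (le_max_right _ _)
      obtain ⟨a', d', ha', hd', h1, h2, h3⟩ := hN (fun e => C (s * d * e)) (T.erase c) (by
          have hcT : c ∈ T := by
            have := hC a ha (by
              have := le_max_left (W + 1) (s * W * N')
              omega)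
            rwa [show C a = c by simpa using hc 0 (Nat.zero_le _)] at this
          rw [card_erase_of_mem hcT]
          omega)
        fun e he heN => mem_erase.2 ⟨by rw [mul_assoc]; exact hex e he heN,
          hC _ (Nat.mul_pos (Nat.mul_pos hs hd) he) (hmul e heN)⟩
      refine ⟨s * d * a', s * d * d', Nat.mul_pos (Nat.mul_pos hs hd) ha',
        Nat.mul_pos (Nat.mul_pos hs hd) hd', ?_, ?_, fun j hj => ?_⟩
      · rw [show s * d * a' + m * (s * d * d') = s * d * (a' + m * d') by ring]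
        exact hmul _ h1
      · rw [show s * (s * d * d') = s * d * (s * d') by ring]
        exact hmul _ h2
      · rw [show s * d * a' + j * (s * d * d') = s * d * (a' + j * d') by ring,
          show s * (s * d * d') = s * d * (s * d') by ring]
        exact h3 j hj

/-- **Brauer's theorem.** -/
theorem brauer (m : ℕ) {s : ℕ} (hs : 0 < s) (C : ℕ → κ) :
    ∃ a d : ℕ, 0 < a ∧ 0 < d ∧ ∀ j ≤ m, C (a + j * d) = C (s * d) := by
  classical
  have := Fintype.ofFinite κ
  obtain ⟨N, -, hN⟩ := brauer_finite (κ := κ) m hs (Fintype.card κ)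
  obtain ⟨a, d, ha, hd, -, -, h⟩ := hN C univ le_rfl fun n _ _ => mem_univ _
  exact ⟨a, d, ha, hd, h⟩

variable {ι : Type*} [Fintype ι]

/-- A set of coefficients with sum zero gives monochromatic solutions. -/
theorem exists_solution (c : ι → ℤ) (hc : ∀ i, c i ≠ 0) {T : Finset ι} (hT : T.Nonempty)
    (hsum : ∑ i ∈ T, c i = 0) (C : ℕ → κ) :
    ∃ x : ι → ℕ, (∀ i, 0 < x i) ∧ (∀ i j, C (x i) = C (x j)) ∧ ∑ i, c i * x i = 0 := by
  classical
  obtain ⟨i₀, hi₀⟩ := hT
  set σ := ∑ i ∈ Tᶜ, c i with hσ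
  obtain ⟨a, d, ha, hd, h⟩ := brauer (2 * σ.natAbs) (Int.natAbs_pos.2 (hc i₀)) C
  set j := ((σ.natAbs : ℤ) - σ * (c i₀).sign).toNat with hj
  have hjb : (0 : ℤ) ≤ (σ.natAbs : ℤ) - σ * (c i₀).sign ∧
      (σ.natAbs : ℤ) - σ * (c i₀).sign ≤ 2 * (σ.natAbs : ℤ) := by
    rcases lt_or_gt_of_ne (hc i₀) with h0 | h0
    · rw [Int.sign_eq_neg_one_of_neg h0]
      omega
    · rw [Int.sign_eq_one_of_pos h0]
      omega
  let x : ι → ℕ := fun i =>
    if i = i₀ then a + j * d else if i ∈ T then a + σ.natAbs * d else (c i₀).natAbs * d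
  refine ⟨x, fun i => ?_, ?_, ?_⟩
  · simp only [x]
    split_ifs
    exacts [by omega, by omega, Nat.mul_pos (Int.natAbs_pos.2 (hc i₀)) hd]
  · suffices key : ∀ i, C (x i) = C ((c i₀).natAbs * d) from fun i k => (key i).trans (key k).symm
    intro i
    simp only [x]
    split_ifs
    exacts [h j (by omega), h _ (by omega), rfl]
  · rw [← sum_add_sum_compl T, ← add_sum_erase T _ hi₀,
      sum_congr rfl (g := fun i => c i * (a + σ.natAbs * d : ℤ)) fun i hi => by
        simp [x, (mem_erase.1 hi).1, (mem_erase.1 hi).2],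
      sum_congr rfl (g := fun i => c i * ((c i₀).natAbs * d : ℤ)) (s₁ := Tᶜ) fun i hi => by
        have hiT : i ∉ T := mem_compl.1 hi
        simp [x, hiT, show i ≠ i₀ from fun e => hiT (e ▸ hi₀)],
      ← sum_mul, ← sum_mul, ← hσ]
    rw [← add_sum_erase T c hi₀] at hsum
    have hxi : ((x i₀ : ℕ) : ℤ) = a + ((σ.natAbs : ℤ) - σ * (c i₀).sign) * d := by
      simp only [x, if_true, hj]
      rw [Nat.cast_add, Nat.cast_mul, Int.toNat_of_nonneg hjb.1]
    rw [hxi]
    have hsgn : c i₀ * (c i₀).sign = ((c i₀).natAbs : ℤ) := Int.mul_sign_self _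
    linear_combination (a + (σ.natAbs : ℤ) * d) * hsum - σ * d * hsgn

/-- Without such a set the colouring by the last nonzero digit avoids the equation. -/
theorem exists_colouring (c : ι → ℤ) [Nonempty ι]
    (hno : ∀ T : Finset ι, T.Nonempty → ∑ i ∈ T, c i ≠ 0) :
    ∃ (k : ℕ) (C : ℕ → Fin k), ¬∃ x : ι → ℕ, (∀ i, 0 < x i) ∧ (∀ i j, C (x i) = C (x j)) ∧
      ∑ i, c i * x i = 0 := by
  classical
  obtain ⟨p, hp, hpp⟩ := Nat.exists_infinite_primes (∑ i, (c i).natAbs + 1)
  refine ⟨p, fun n => ⟨(n / p ^ n.factorization p) % p, Nat.mod_lt _ hpp.pos⟩, ?_⟩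
  rintro ⟨x, hx, hC, hsum⟩
  obtain ⟨i₁, hi₁⟩ := Finite.exists_min fun i => (x i).factorization p
  set v := (x i₁).factorization p
  set T := univ.filter fun i => (x i).factorization p = v with hT
  set δ := (x i₁ / p ^ v) % p with hδ
  have hdvd : ∀ i, p ^ v ∣ x i := fun i =>
    (pow_dvd_pow p (hi₁ i)).trans (Nat.ordProj_dvd (x i) p)
  have hy : ∀ i, ((x i / p ^ v : ℕ) : ZMod p) = if i ∈ T then (δ : ZMod p) else 0 := by
    intro i
    split_ifs with hi
    · have h := congrArg Fin.val (hC i i₁)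
      simp only [(mem_filter.1 hi).2] at h
      rw [ZMod.natCast_eq_natCast_iff', hδ, Nat.mod_mod]
      exact h
    · have hlt : v + 1 ≤ (x i).factorization p :=
        (hi₁ i).lt_of_ne fun e => hi (mem_filter.2 ⟨mem_univ i, e.symm⟩)
      obtain ⟨q, hq⟩ := (pow_dvd_pow p hlt).trans (Nat.ordProj_dvd (x i) p)
      rw [ZMod.natCast_eq_zero_iff, hq, pow_succ, mul_assoc,
        Nat.mul_div_cancel_left _ (pow_pos hpp.pos v)]
      exact dvd_mul_right p q
  have hsum' : ∑ i, c i * ((x i / p ^ v : ℕ) : ℤ) = 0 := by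
    have e : ∀ i, c i * (x i : ℤ) = ((p : ℤ) ^ v) * (c i * ((x i / p ^ v : ℕ) : ℤ)) := fun i => by
      conv_lhs => rw [← Nat.mul_div_cancel' (hdvd i)]
      push_cast
      ring
    rw [sum_congr rfl fun i _ => e i, ← mul_sum] at hsum
    exact (mul_eq_zero.1 hsum).resolve_left (pow_ne_zero _ (Int.natCast_ne_zero.2 hpp.ne_zero))
  have hmod := congrArg (Int.cast : ℤ → ZMod p) hsum'
  simp only [Int.cast_sum, Int.cast_mul, Int.cast_natCast, hy, mul_ite, mul_zero, Int.cast_zero,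
    sum_ite_mem, univ_inter, ← sum_mul] at hmod
  have : Fact p.Prime := ⟨hpp⟩
  rcases mul_eq_zero.1 hmod with h | h
  · rw [← Int.cast_sum, ZMod.intCast_zmod_eq_zero_iff_dvd, Int.natCast_dvd] at h
    refine hno T ⟨i₁, mem_filter.2 ⟨mem_univ _, rfl⟩⟩ (Int.natAbs_eq_zero.1 ?_)
    refine Nat.eq_zero_of_dvd_of_lt h ((Int.natAbs_sum_le _ _).trans_lt ?_)
    exact (sum_le_univ_sum_of_nonneg fun i => Nat.zero_le _).trans_lt (by omega)
  · rw [ZMod.natCast_eq_zero_iff, hδ, Nat.dvd_mod_iff dvd_rfl] at h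
    exact Nat.not_dvd_ordCompl hpp (hx i₁).ne' h

/-- **Rado's theorem** for one equation. -/
theorem regular_iff [Nonempty ι] (c : ι → ℤ) (hc : ∀ i, c i ≠ 0) :
    (∀ (k : ℕ) (C : ℕ → Fin k), ∃ x : ι → ℕ, (∀ i, 0 < x i) ∧ (∀ i j, C (x i) = C (x j)) ∧
      ∑ i, c i * x i = 0) ↔ ∃ T : Finset ι, T.Nonempty ∧ ∑ i ∈ T, c i = 0 := by
  refine ⟨fun h => ?_, fun ⟨T, hT, hsum⟩ k C => exists_solution c hc hT hsum C⟩
  by_contra! hno
  obtain ⟨k, C, hC⟩ := exists_colouring c hno
  exact hC (h k C)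

end FA.RadoEquation

end
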